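import Fermat.Agent.S36.Eng.Spec

/-!
# S36 / MOD3 — frozen interfaces (sub-architect helper928)

`Eng/Spec.lean` (architect helper996) freezes `Eng.TripleCtx` and `Eng.Model3Statement`.  This file

* splits `Eng.TripleCtx` (Eng/Spec v1.3 FINAL) into thirteen GENERIC parts (`PartFF`, `PartVal`,
  `PartSheet`, `PartQep`, `PartNormal`, `PartInc`, `PartReg`, `PartFin`, `PartTable`, `PartNV`,
  `PartNR`, `PartChart`, `PartUniq`), each a `Prop`-valued structure whose fields are VERBATIM the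
  fields of `Eng.TripleCtx` (`tripleCtx_of_parts` in `Skel.lean` reassembles them);
  `PartReg` is further split into `PartRegT` (triple points) and `PartRegM` (points of the middle
  component only, and its cusps), see `partReg_of_split` in `Skel.lean`;
* fixes the CONCRETE objects at the levels `M q` and `M q q` (`q ∤ M`), in the vocabulary of
  `A2/Mod/Spec.lean`:

  - `x' = A2.Mod.xE E M q = j · j_q`           (so that the model of cell A2 / S35.G is reusable),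
  - `x  = x3E E M q = j · j_q · j_{q²}`          (Fricke-invariant),
  - `V₁' = V∞` (`A2.Mod.IsVinf` at level `M q`),  `V₂' = V₁'.comap W'`  (`W'` Fricke of level `M q`),
  - `V₁  = V∞` (`A2.Mod.IsVinf` at level `M q q`), `V₃ = V₁.comap W`    (`W` Fricke of level `M q q`),
  - `V₂`  = THE OTHER extension of `V₁'` along `α`:  `V₂.comap α = V₁'`, `V₂ ≠ V₁`
            (unique: Eisenstein splitting `Φ_q(j_q, Y)/(Y - j) ≡ (Y - j^{q²})(Y - j)^{q-1}`);

* states one LEAF per part: `Leaf… : Prop` (prove `theorem foo : Leaf…` in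
  `Fermat/Agent/S36/Mod3/H<seat>/*.lean` or cite your own file, importing this one).

`Skel.lean`: `model3_of_leaves : (all leaves) → Eng.Model3Statement` (sorry-free).
Definitions only (no `sorry`).

v2 (22:00Z): re-based on Eng/Spec v1.3 (`UnitAt`/`UnifAt` exclude `0`; new fields `base_i`,
`gauss_i` = `PartSheet`, `fin_α`, `fin_β` = `PartFin`; `regular_f`, `regular_i` only on the middle
component; `NeatFor` contains `4 ∣ M` resp. `9 ∣ M`).  The other parts are textually unchanged.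
-/

set_option autoImplicit false
set_option linter.style.haveILetI false
set_option linter.unusedSectionVars false
set_option synthInstance.maxHeartbeats 400000
set_option maxHeartbeats 1600000

noncomputable section

namespace Fermat.Agent.S36.Mod3

open ModularCurve AlgebraicCurve
open Fermat.Agent.S18.H138 (chart)
open Fermat.Agent.S36.Eng

/-! ## The parts of `Eng.TripleCtx` (generic; fields verbatim) -/

section Parts

variable {R E F F' : Type*} [CommRing R] [Field E] [Algebra R E]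
  [Field F] [Algebra E F] [Algebra R F] [Field F'] [Algebra E F'] [Algebra R F']

/-- FF: the function field. -/
structure PartFF (E : Type*) [Field E] {F : Type*} [Field F] [Algebra E F] (x : F) : Prop where
  hx : Transcendental E x
  hfin : FiniteDimensional (IntermediateField.adjoin E ({x} : Set F)) F
  hconst : ∀ f : F, IsAlgebraic E f → f ∈ (algebraMap E F).range

/-- VAL: the three valuation rings are DVRs, distinct, `e = (1, q - 1, 1)`, `x` is a unit. -/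
structure PartVal (w : R) (q : ℕ) (x : F) (V₁ V₂ V₃ : ValuationSubring F) : Prop where
  dvr₁ : IsDiscreteValuationRing V₁
  dvr₂ : IsDiscreteValuationRing V₂
  dvr₃ : IsDiscreteValuationRing V₃
  ne₁₂ : V₁ ≠ V₂
  ne₁₃ : V₁ ≠ V₃
  ne₂₃ : V₂ ≠ V₃
  unif₁ : UnifAt V₁ (algebraMap R F w)
  unif₃ : UnifAt V₃ (algebraMap R F w)
  ram₂ : ∃ t : F, UnifAt V₂ t ∧ UnitAt V₂ (algebraMap R F w * (t ^ (q - 1))⁻¹)
  x_unit₁ : UnitAt V₁ x
  x_unit₂ : UnitAt V₂ x
  x_unit₃ : UnitAt V₃ x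

/-- SHEET: the three valuation rings contain `R` and induce the Gauss valuation on `R[x]`. -/
structure PartSheet (w : R) (x : F) (V₁ V₂ V₃ : ValuationSubring F) : Prop where
  base₁ : ∀ r : R, algebraMap R F r ∈ V₁
  base₂ : ∀ r : R, algebraMap R F r ∈ V₂
  base₃ : ∀ r : R, algebraMap R F r ∈ V₃
  gauss₁ : ∀ P : Polynomial R, (∃ i, ¬ w ∣ P.coeff i) → (Polynomial.aeval x P)⁻¹ ∈ V₁
  gauss₂ : ∀ P : Polynomial R, (∃ i, ¬ w ∣ P.coeff i) → (Polynomial.aeval x P)⁻¹ ∈ V₂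
  gauss₃ : ∀ P : Polynomial R, (∃ i, ¬ w ∣ P.coeff i) → (Polynomial.aeval x P)⁻¹ ∈ V₃

/-- QEP3: the three valuation rings are all the components, with multiplicities. -/
structure PartQep (w : R) (x : F) (V₁ V₂ V₃ : ValuationSubring F) : Prop where
  qep_f : Qep3 w (chart R ({x} : Set F)) V₁ V₂ V₃
  qep_i : Qep3 w (chart R ({x⁻¹} : Set F)) V₁ V₂ V₃

/-- NORMAL: the three components of both charts are normal. -/
structure PartNormal (R : Type*) [CommRing R] {F : Type*} [Field F] [Algebra R F]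
    (x : F) (V₁ V₂ V₃ : ValuationSubring F) : Prop where
  normal_f₁ : NormalAlong (chart R ({x} : Set F)) V₁
  normal_f₂ : NormalAlong (chart R ({x} : Set F)) V₂
  normal_f₃ : NormalAlong (chart R ({x} : Set F)) V₃
  normal_i₁ : NormalAlong (chart R ({x⁻¹} : Set F)) V₁
  normal_i₂ : NormalAlong (chart R ({x⁻¹} : Set F)) V₂
  normal_i₃ : NormalAlong (chart R ({x⁻¹} : Set F)) V₃

/-- INC: incidence in the finite chart, the cusps lie on one component. -/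
structure PartInc (w : R) (x : F) (V₁ V₂ V₃ : ValuationSubring F) : Prop where
  incidence : ∀ 𝔪 : Ideal (chart R ({x} : Set F)), 𝔪.IsMaximal →
    (Through _ 𝔪 V₁ ∧ Through _ 𝔪 V₂) ∨ (Through _ 𝔪 V₁ ∧ Through _ 𝔪 V₃) ∨
      (Through _ 𝔪 V₂ ∧ Through _ 𝔪 V₃) → IsTriple _ 𝔪 V₁ V₂ V₃
  cusp_single : ∀ 𝔪 : Ideal (chart R ({x⁻¹} : Set F)), 𝔪.IsMaximal →
    algebraMap R (chart R ({x⁻¹} : Set F)) w ∈ 𝔪 →
    (⟨x⁻¹, Fermat.Agent.S18.H138.mem_chart_of_mem rfl⟩ : chart R ({x⁻¹} : Set F)) ∈ 𝔪 →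
    ¬ (Through _ 𝔪 V₁ ∧ Through _ 𝔪 V₂) ∧ ¬ (Through _ 𝔪 V₁ ∧ Through _ 𝔪 V₃) ∧
      ¬ (Through _ 𝔪 V₂ ∧ Through _ 𝔪 V₃)

/-- REG: regularity at the closed points of the middle component (both charts). -/
structure PartReg (R : Type*) [CommRing R] {F : Type*} [Field F] [Algebra R F]
    (x : F) (V₁ V₂ V₃ : ValuationSubring F) : Prop where
  regular_f : ∀ 𝔪 : Ideal (chart R ({x} : Set F)), 𝔪.IsMaximal → Through _ 𝔪 V₂ →
    (Through _ 𝔪 V₁ ∧ PrincipalAt _ 𝔪 V₁) ∨ PrincipalAt _ 𝔪 V₂ ∨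
      (Through _ 𝔪 V₃ ∧ PrincipalAt _ 𝔪 V₃)
  regular_i : ∀ 𝔪 : Ideal (chart R ({x⁻¹} : Set F)), 𝔪.IsMaximal →
    (⟨x⁻¹, Fermat.Agent.S18.H138.mem_chart_of_mem rfl⟩ : chart R ({x⁻¹} : Set F)) ∈ 𝔪 →
    Through _ 𝔪 V₂ → PrincipalAt _ 𝔪 V₂

/-- REG-T: at a TRIPLE point of the finite chart the component `V₃` (or `V₁`) is locally
principal (helper263 `bridge_of_th1`: from TH1 at level `M q` and `Qep3`). -/
structure PartRegT (R : Type*) [CommRing R] {F : Type*} [Field F] [Algebra R F]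
    (x : F) (V₁ V₂ V₃ : ValuationSubring F) : Prop where
  regular_t : ∀ 𝔪 : Ideal (chart R ({x} : Set F)), 𝔪.IsMaximal → IsTriple _ 𝔪 V₁ V₂ V₃ →
    PrincipalAt _ 𝔪 V₁ ∨ PrincipalAt _ 𝔪 V₃

/-- REG-M: at a closed point of the finite chart lying on the middle component ONLY, and at the
cusps of the middle component, the middle component is locally principal (R4). -/
structure PartRegM (R : Type*) [CommRing R] {F : Type*} [Field F] [Algebra R F]
    (x : F) (V₁ V₂ V₃ : ValuationSubring F) : Prop where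
  regular_m : ∀ 𝔪 : Ideal (chart R ({x} : Set F)), 𝔪.IsMaximal → Through _ 𝔪 V₂ →
    ¬ Through _ 𝔪 V₁ → ¬ Through _ 𝔪 V₃ → PrincipalAt _ 𝔪 V₂
  regular_i : ∀ 𝔪 : Ideal (chart R ({x⁻¹} : Set F)), 𝔪.IsMaximal →
    (⟨x⁻¹, Fermat.Agent.S18.H138.mem_chart_of_mem rfl⟩ : chart R ({x⁻¹} : Set F)) ∈ 𝔪 →
    Through _ 𝔪 V₂ → PrincipalAt _ 𝔪 V₂

/-- FIN: the two degeneracy maps are finite. -/
structure PartFin (E : Type*) [Field E] {F F' : Type*} [Field F] [Algebra E F] [Field F']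
    [Algebra E F'] (α β : F' →ₐ[E] F) : Prop where
  fin_α : FiniteAlong E α
  fin_β : FiniteAlong E β

/-- TABLE: lying over. -/
structure PartTable (α β : F' →ₐ[E] F) (V₁ V₂ V₃ : ValuationSubring F)
    (V₁' V₂' : ValuationSubring F') : Prop where
  comap_α₁ : V₁.comap (α : F' →+* F) = V₁'
  comap_α₂ : V₂.comap (α : F' →+* F) = V₁'
  comap_α₃ : V₃.comap (α : F' →+* F) = V₂'
  comap_β₁ : V₁.comap (β : F' →+* F) = V₁'
  comap_β₂ : V₂.comap (β : F' →+* F) = V₂'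
  comap_β₃ : V₃.comap (β : F' →+* F) = V₂'

/-- NV: valuations of norms. -/
structure PartNV (w : R) (q : ℕ) (α β : F' →ₐ[E] F) (V₁ V₂ V₃ : ValuationSubring F)
    (V₁' V₂' : ValuationSubring F') : Prop where
  nv_α : ∀ (t : F), UnifAt V₂ t → ∀ (y : F) (a₁ a₂ a₃ : ℤ), y ≠ 0 →
    UnitAt V₁ (y * (algebraMap R F w ^ a₁)⁻¹) → UnitAt V₂ (y * (t ^ a₂)⁻¹) →
    UnitAt V₃ (y * (algebraMap R F w ^ a₃)⁻¹) →
    UnitAt V₁' (S29.H395.normAlong α y * (algebraMap R F' w ^ (a₁ + a₂))⁻¹) ∧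
      UnitAt V₂' (S29.H395.normAlong α y * (algebraMap R F' w ^ ((q : ℤ) * a₃))⁻¹)
  nv_β : ∀ (t : F), UnifAt V₂ t → ∀ (y : F) (a₁ a₂ a₃ : ℤ), y ≠ 0 →
    UnitAt V₁ (y * (algebraMap R F w ^ a₁)⁻¹) → UnitAt V₂ (y * (t ^ a₂)⁻¹) →
    UnitAt V₃ (y * (algebraMap R F w ^ a₃)⁻¹) →
    UnitAt V₂' (S29.H395.normAlong β y * (algebraMap R F' w ^ (a₃ + a₂))⁻¹) ∧
      UnitAt V₁' (S29.H395.normAlong β y * (algebraMap R F' w ^ ((q : ℤ) * a₁))⁻¹)

/-- NR: residues of norms. -/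
structure PartNR (q : ℕ) (α β : F' →ₐ[E] F) (V₁ V₂ V₃ : ValuationSubring F)
    (V₁' V₂' : ValuationSubring F') : Prop where
  nr_α₁ : ∀ y : F, UnitAt V₁ y → UnitAt V₂ y → ∀ x₁ x₂ : F',
    α x₁ - y ∈ V₁.nonunits → α x₂ - y ∈ V₂.nonunits →
    S29.H395.normAlong α y - x₁ * x₂ ^ (q - 1) ∈ V₁'.nonunits
  nr_α₂ : ∀ y : F, UnitAt V₃ y → α (S29.H395.normAlong α y) - y ^ q ∈ V₃.nonunits
  nr_β₁ : ∀ y : F, UnitAt V₃ y → UnitAt V₂ y → ∀ x₃ x₂ : F',
    β x₃ - y ∈ V₃.nonunits → β x₂ - y ∈ V₂.nonunits →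
    S29.H395.normAlong β y - x₃ * x₂ ^ (q - 1) ∈ V₂'.nonunits
  nr_β₂ : ∀ y : F, UnitAt V₁ y → β (S29.H395.normAlong β y) - y ^ q ∈ V₁.nonunits

/-- CHART: the finite charts of the two levels, integrality, residue degree one in chart form. -/
structure PartChart (R : Type*) [CommRing R] {E F F' : Type*} [Field E] [Field F] [Algebra E F]
    [Algebra R F] [Field F'] [Algebra E F'] [Algebra R F']
    (α β : F' →ₐ[E] F) (x : F) (x' : F') (V₁ V₂ V₃ : ValuationSubring F) : Prop where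
  chart_α : ∀ b ∈ chart R ({x'} : Set F'), α b ∈ chart R ({x} : Set F)
  chart_β : ∀ b ∈ chart R ({x'} : Set F'), β b ∈ chart R ({x} : Set F)
  int_α : ∀ b ∈ chart R ({x} : Set F), ∃ p : Polynomial F', p.Monic ∧
    (∀ i, p.coeff i ∈ chart R ({x'} : Set F')) ∧ (p.map (α : F' →+* F)).eval b = 0
  int_β : ∀ b ∈ chart R ({x} : Set F), ∃ p : Polynomial F', p.Monic ∧
    (∀ i, p.coeff i ∈ chart R ({x'} : Set F')) ∧ (p.map (β : F' →+* F)).eval b = 0
  res_α₁ : ∀ b ∈ chart R ({x} : Set F), ∃ b' ∈ chart R ({x'} : Set F'), b - α b' ∈ V₁.nonunits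
  res_α₂ : ∀ b ∈ chart R ({x} : Set F), ∃ b' ∈ chart R ({x'} : Set F'), b - α b' ∈ V₂.nonunits
  res_β₃ : ∀ b ∈ chart R ({x} : Set F), ∃ b' ∈ chart R ({x'} : Set F'), b - β b' ∈ V₃.nonunits
  res_β₂ : ∀ b ∈ chart R ({x} : Set F), ∃ b' ∈ chart R ({x'} : Set F'), b - β b' ∈ V₂.nonunits

/-- UNIQ: a triple point is the only closed point over its image under `α`, and under `β`
(the chart inclusions `hα`, `hβ` are hypotheses: they are the fields `chart_α`, `chart_β`). -/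
structure PartUniq (R : Type*) [CommRing R] {E F F' : Type*} [Field E] [Field F] [Algebra E F]
    [Algebra R F] [Field F'] [Algebra E F'] [Algebra R F']
    (α β : F' →ₐ[E] F) (x : F) (x' : F') (V₁ V₂ V₃ : ValuationSubring F) : Prop where
  unique_α : ∀ (hα : ∀ b ∈ chart R ({x'} : Set F'), α b ∈ chart R ({x} : Set F))
    (𝔪 𝔪' : Ideal (chart R ({x} : Set F))), 𝔪.IsMaximal → 𝔪'.IsMaximal →
    IsTriple _ 𝔪 V₁ V₂ V₃ →
    (∀ (b' : F') (h : b' ∈ chart R ({x'} : Set F')),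
      (⟨α b', hα b' h⟩ : chart R ({x} : Set F)) ∈ 𝔪 →
        (⟨α b', hα b' h⟩ : chart R ({x} : Set F)) ∈ 𝔪') → 𝔪' = 𝔪
  unique_β : ∀ (hβ : ∀ b ∈ chart R ({x'} : Set F'), β b ∈ chart R ({x} : Set F))
    (𝔪 𝔪' : Ideal (chart R ({x} : Set F))), 𝔪.IsMaximal → 𝔪'.IsMaximal →
    IsTriple _ 𝔪 V₁ V₂ V₃ →
    (∀ (b' : F') (h : b' ∈ chart R ({x'} : Set F')),
      (⟨β b', hβ b' h⟩ : chart R ({x} : Set F)) ∈ 𝔪 →
        (⟨β b', hβ b' h⟩ : chart R ({x} : Set F)) ∈ 𝔪') → 𝔪' = 𝔪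

end Parts

/-! ## The concrete objects -/

section Concrete

variable (P : ValuationSubring A2.Qb) (E : IntermediateField ℚ A2.Qb) (M q : ℕ)
  [NeZero M] [NeZero q] [NeZero (M * q)]

/-- `j` at level `M q q`. -/
def j1 : A2.Mod.FE E (M * q * q) := A2.Mod.jE E (M * q * q) 1 (one_dvd _)

/-- `j_q` at level `M q q`. -/
def jq : A2.Mod.FE E (M * q * q) :=
  A2.Mod.jE E (M * q * q) q (Dvd.intro_left (M * q) rfl)

/-- `j_{q²}` at level `M q q`. -/
def jqq : A2.Mod.FE E (M * q * q) :=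
  A2.Mod.jE E (M * q * q) (q * q) ⟨M, by ring⟩

/-- **The coordinate** `x = j · j_q · j_{q²}` of level `M q q`. -/
def x3E : A2.Mod.FE E (M * q * q) := j1 E M q * jq E M q * jqq E M q

/-- The standing hypotheses of `Eng.Model3Statement`. -/
structure Std (w : A2.RE P E) : Prop where
  q_prime : q.Prime
  q_not_dvd : ¬ q ∣ M
  lies_over : P.LiesOverPrime q
  unram : Unramified P E q
  neat : NeatFor M q
  unif : Irreducible w

/-- **The objects.**  `V₁' = V∞`, `V₂' = V₀` at level `M q`; `V₁ = V∞` (`FF`), `V₃ = V₀` (`VV`) at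
level `M q q`; `V₂` (`mid`) is the other extension of `V₁'` along `α`. -/
structure Objs (V₁' V₂' : ValuationSubring (A2.Mod.FE E (M * q)))
    (V₁ V₂ V₃ : ValuationSubring (A2.Mod.FE E (M * q * q)))
    (W' : A2.Mod.FE E (M * q) ≃ₐ[E] A2.Mod.FE E (M * q))
    (W : A2.Mod.FE E (M * q * q) ≃ₐ[E] A2.Mod.FE E (M * q * q)) : Prop where
  vinf' : A2.Mod.IsVinf P E (M * q) V₁'
  fricke' : A2.Mod.IsFricke E (M * q) W'
  vzero' : V₂' = V₁'.comap (W' : A2.Mod.FE E (M * q) →+* A2.Mod.FE E (M * q))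
  vinf : A2.Mod.IsVinf P E (M * q * q) V₁
  fricke : A2.Mod.IsFricke E (M * q * q) W
  vzero : V₃ = V₁.comap (W : A2.Mod.FE E (M * q * q) →+* A2.Mod.FE E (M * q * q))
  mid : V₂.comap (A2.Mod.αE E (M * q) q : A2.Mod.FE E (M * q) →+* A2.Mod.FE E (M * q * q)) = V₁'
  mid_ne : V₂ ≠ V₁

end Concrete

/-! ## The leaves -/

section Leaves

/-- Binder prefix of every leaf. -/
def Leaf (body : ∀ (P : ValuationSubring A2.Qb) (E : IntermediateField ℚ A2.Qb) (M q : ℕ)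
    [NeZero M] [NeZero q] [NeZero (M * q)] (_ : A2.RE P E)
    (_ _ : ValuationSubring (A2.Mod.FE E (M * q)))
    (_ _ _ : ValuationSubring (A2.Mod.FE E (M * q * q))), Prop) : Prop :=
  ∀ (P : ValuationSubring A2.Qb) (E : IntermediateField ℚ A2.Qb) (M q : ℕ)
    [NeZero M] [NeZero q] [NeZero (M * q)] (w : A2.RE P E),
    Std P E M q w →
    ∀ (V₁' V₂' : ValuationSubring (A2.Mod.FE E (M * q)))
      (V₁ V₂ V₃ : ValuationSubring (A2.Mod.FE E (M * q * q)))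
      (W' : A2.Mod.FE E (M * q) ≃ₐ[E] A2.Mod.FE E (M * q))
      (W : A2.Mod.FE E (M * q * q) ≃ₐ[E] A2.Mod.FE E (M * q * q)),
      Objs P E M q V₁' V₂' V₁ V₂ V₃ W' W → body P E M q w V₁' V₂' V₁ V₂ V₃

/-- **OBJ (leaf).**  The objects exist: `V∞` and Fricke at both levels (L1, L4 of A2/Mod, any
level) and the MIDDLE valuation ring `V₂` (Eisenstein splitting of `Φ_q(j_q, Y) / (Y - j)` over
`V₁'`; needs `E` unramified). -/
def LeafObj : Prop :=
  ∀ (P : ValuationSubring A2.Qb) (E : IntermediateField ℚ A2.Qb) (M q : ℕ)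
    [NeZero M] [NeZero q] [NeZero (M * q)] (w : A2.RE P E),
    Std P E M q w →
    ∃ (V₁' V₂' : ValuationSubring (A2.Mod.FE E (M * q)))
      (V₁ V₂ V₃ : ValuationSubring (A2.Mod.FE E (M * q * q)))
      (W' : A2.Mod.FE E (M * q) ≃ₐ[E] A2.Mod.FE E (M * q))
      (W : A2.Mod.FE E (M * q * q) ≃ₐ[E] A2.Mod.FE E (M * q * q)),
      Objs P E M q V₁' V₂' V₁ V₂ V₃ W' W

/-- **FF (leaf).**  `x = j j_q j_{q²}` is transcendental, `F` is finite over `E(x)`, `E` is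
algebraically closed in `F` (as L8 of A2/Mod). -/
def LeafFF : Prop :=
  ∀ (E : IntermediateField ℚ A2.Qb) (M q : ℕ) [NeZero M] [NeZero q] [NeZero (M * q)],
    q.Prime → ¬ q ∣ M → PartFF E (x3E E M q)

/-- **VAL (leaf).** -/
def LeafVal : Prop :=
  Leaf fun P E M q _ _ _ w _ _ V₁ V₂ V₃ =>
    PartVal (R := A2.RE P E) w q (x3E E M q) V₁ V₂ V₃

/-- **QEP3 (leaf).** -/
def LeafQep : Prop :=
  Leaf fun P E M q _ _ _ w _ _ V₁ V₂ V₃ =>
    PartQep (R := A2.RE P E) w (x3E E M q) V₁ V₂ V₃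

/-- **NORMAL (leaf).** -/
def LeafNormal : Prop :=
  Leaf fun P E M q _ _ _ _ _ _ V₁ V₂ V₃ =>
    PartNormal (A2.RE P E) (x3E E M q) V₁ V₂ V₃

/-- **INC (leaf).** -/
def LeafInc : Prop :=
  Leaf fun P E M q _ _ _ w _ _ V₁ V₂ V₃ =>
    PartInc (R := A2.RE P E) w (x3E E M q) V₁ V₂ V₃

/-- **REG (leaf)** `= LeafRegT + LeafRegM + LeafInc` (`leafReg_of_split`). -/
def LeafReg : Prop :=
  Leaf fun P E M q _ _ _ _ _ _ V₁ V₂ V₃ =>
    PartReg (A2.RE P E) (x3E E M q) V₁ V₂ V₃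

/-- **REG-T (leaf).** -/
def LeafRegT : Prop :=
  Leaf fun P E M q _ _ _ _ _ _ V₁ V₂ V₃ =>
    PartRegT (A2.RE P E) (x3E E M q) V₁ V₂ V₃

/-- **REG-M (leaf).** -/
def LeafRegM : Prop :=
  Leaf fun P E M q _ _ _ _ _ _ V₁ V₂ V₃ =>
    PartRegM (A2.RE P E) (x3E E M q) V₁ V₂ V₃

/-- **SHEET (leaf).** -/
def LeafSheet : Prop :=
  Leaf fun P E M q _ _ _ w _ _ V₁ V₂ V₃ =>
    PartSheet (R := A2.RE P E) w (x3E E M q) V₁ V₂ V₃

/-- **FIN (leaf).** -/
def LeafFin : Prop :=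
  ∀ (E : IntermediateField ℚ A2.Qb) (M q : ℕ) [NeZero M] [NeZero q] [NeZero (M * q)],
    q.Prime → ¬ q ∣ M → PartFin E (A2.Mod.αE E (M * q) q) (A2.Mod.βE E (M * q) q)

/-- **TABLE (leaf).** -/
def LeafTable : Prop :=
  Leaf fun _ E M q _ _ _ _ V₁' V₂' V₁ V₂ V₃ =>
    PartTable (A2.Mod.αE E (M * q) q) (A2.Mod.βE E (M * q) q) V₁ V₂ V₃ V₁' V₂'

/-- **NV (leaf).** -/
def LeafNV : Prop :=
  Leaf fun P E M q _ _ _ w V₁' V₂' V₁ V₂ V₃ =>
    PartNV (R := A2.RE P E) w q (A2.Mod.αE E (M * q) q) (A2.Mod.βE E (M * q) q)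
      V₁ V₂ V₃ V₁' V₂'

/-- **NR (leaf).** -/
def LeafNR : Prop :=
  Leaf fun _ E M q _ _ _ _ V₁' V₂' V₁ V₂ V₃ =>
    PartNR q (A2.Mod.αE E (M * q) q) (A2.Mod.βE E (M * q) q) V₁ V₂ V₃ V₁' V₂'

/-- **CHART (leaf).** -/
def LeafChart : Prop :=
  Leaf fun P E M q _ _ _ _ _ _ V₁ V₂ V₃ =>
    PartChart (A2.RE P E) (A2.Mod.αE E (M * q) q) (A2.Mod.βE E (M * q) q)
      (x3E E M q) (A2.Mod.xE E M q) V₁ V₂ V₃

/-- **UNIQ (leaf).** -/
def LeafUniq : Prop :=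
  Leaf fun P E M q _ _ _ _ _ _ V₁ V₂ V₃ =>
    PartUniq (A2.RE P E) (A2.Mod.αE E (M * q) q) (A2.Mod.βE E (M * q) q)
      (x3E E M q) (A2.Mod.xE E M q) V₁ V₂ V₃

end Leaves

end Fermat.Agent.S36.Mod3

end
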