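import Fermat.Agent.S36.Mod3.Spec

/-!
# S36 / MOD3 — the VALUATION-LEVEL hub `LeafVT` (sub-architect helper928)

`Mod3/Spec.lean` states the leaves of `Eng.Model3Statement` (= groups of fields of
`Eng.TripleCtx`).  Most of them need the same VALUATION-LEVEL facts about the three valuation rings
`V₁` (`FF`), `V₂` (`mid`), `V₃` (`VV`) of level `M q q` over `V₁'`, `V₂'` of level `M q`:
residue degree one, pure inseparability, completeness (no other extension), the uniformiser
`π = j_{q²} - j` of the middle component, the Kronecker congruences.  They are the output of the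
concrete Eisenstein instance (`H972.EisData` at `O = V₁'`, `y = j_{q²}`, `c = j`), of helper83's
`β`-side (`h83_beta_unique`, `h83_beta_insep`), of helper370's rows `FF`, `VV` and of Fricke.

This file freezes them as ONE optional hub:

* `PartVT`  : the valuation-level table (generic);
* `LeafVT`  : `Std → Objs → PartVT` for the concrete objects.

USE: a downstream leaf may be delivered as `theorem leafX_of : LeafVT → … → LeafX`
(hypotheses = `Mod3.Leaf…` Props only).  Definitions only (no `sorry`).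
-/

set_option autoImplicit false
set_option linter.style.haveILetI false
set_option linter.unusedSectionVars false
set_option synthInstance.maxHeartbeats 400000
set_option maxHeartbeats 1600000

noncomputable section

namespace Fermat.Agent.S36.Mod3

open ModularCurve AlgebraicCurve
open Fermat.Agent.S36.Eng

section Parts

variable {R E F F' : Type*} [CommRing R] [Field E] [Algebra R E]
  [Field F] [Algebra E F] [Algebra R F] [Field F'] [Algebra E F'] [Algebra R F']

/-- **The valuation-level table.**  `j`, `jq`, `jqq` are the three `j`-invariants of level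
`M q q`.  Table (`e`, `f`):

    via α :  V₁ | V₁' (1,1)    V₂ | V₁' (q-1,1)    V₃ | V₂' (1, q insep)
    via β :  V₃ | V₂' (1,1)    V₂ | V₂' (q-1,1)    V₁ | V₁' (1, q insep)
-/
structure PartVT (w : R) (q : ℕ) (α β : F' →ₐ[E] F) (j jq jqq : F)
    (V₁ V₂ V₃ : ValuationSubring F) (V₁' V₂' : ValuationSubring F') : Prop where
  -- ### residue degree one
  res_α₁ : ∀ f ∈ V₁, ∃ g ∈ V₁', f - α g ∈ V₁.nonunits
  res_α₂ : ∀ f ∈ V₂, ∃ g ∈ V₁', f - α g ∈ V₂.nonunits
  res_β₃ : ∀ f ∈ V₃, ∃ g ∈ V₂', f - β g ∈ V₃.nonunits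
  res_β₂ : ∀ f ∈ V₂, ∃ g ∈ V₂', f - β g ∈ V₂.nonunits
  -- ### purely inseparable residue extensions of degree `q`
  insep_α₃ : ∀ f ∈ V₃, ∃ g ∈ V₂', f ^ q - α g ∈ V₃.nonunits
  insep_β₁ : ∀ f ∈ V₁, ∃ g ∈ V₁', f ^ q - β g ∈ V₁.nonunits
  -- ### completeness: there is no other extension
  only_α₁ : ∀ V : ValuationSubring F, V.comap (α : F' →+* F) = V₁' → V = V₁ ∨ V = V₂
  only_α₃ : ∀ V : ValuationSubring F, V.comap (α : F' →+* F) = V₂' → V = V₃
  only_β₂ : ∀ V : ValuationSubring F, V.comap (β : F' →+* F) = V₂' → V = V₃ ∨ V = V₂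
  only_β₁ : ∀ V : ValuationSubring F, V.comap (β : F' →+* F) = V₁' → V = V₁
  -- ### the uniformiser `π = j_{q²} - j` of the middle component, `π ^ (q - 1) = w · unit`
  pi_unif : UnifAt V₂ (jqq - j)
  pi_pow : UnitAt V₂ (algebraMap R F w * ((jqq - j) ^ (q - 1))⁻¹)
  -- ### Kronecker congruences on the three components
  kron₁ : jq - j ^ q ∈ V₁.nonunits ∧ jqq - jq ^ q ∈ V₁.nonunits
  kron₂ : jq - j ^ q ∈ V₂.nonunits ∧ jqq - j ∈ V₂.nonunits
  kron₃ : j - jq ^ q ∈ V₃.nonunits ∧ jq - jqq ^ q ∈ V₃.nonunits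

end Parts

/-- **VT (leaf, optional hub).**  The valuation-level table of the concrete objects. -/
def LeafVT : Prop :=
  Leaf fun P E M q _ _ _ w V₁' V₂' V₁ V₂ V₃ =>
    PartVT (R := A2.RE P E) w q (A2.Mod.αE E (M * q) q) (A2.Mod.βE E (M * q) q)
      (j1 E M q) (jq E M q) (jqq E M q) V₁ V₂ V₃ V₁' V₂'

end Fermat.Agent.S36.Mod3

end
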