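import Fermat.Agent.S36.Mod3.Spec

/-!
# S36 / MOD3 — skeleton (sub-architect helper928): the leaves give `Eng.Model3Statement`

* `tripleCtx_of_parts` : the thirteen generic parts reassemble `Eng.TripleCtx` (Eng/Spec v1.3);
* `partReg_of_split`   : `PartInc + PartRegT + PartRegM ⟹ PartReg`;
* `model3_of_leaves`   : `LeafObj` + the thirteen leaves ⟹ `Eng.Model3Statement`;
* `model3_of_leaves'`  : the same with `LeafReg` replaced by `LeafRegT`, `LeafRegM`.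

Sorry-free; the leaves are hypotheses.
-/

set_option autoImplicit false
set_option linter.style.haveILetI false
set_option linter.unusedSectionVars false
set_option synthInstance.maxHeartbeats 400000
set_option maxHeartbeats 1600000

noncomputable section

namespace Fermat.Agent.S36.Mod3

open ModularCurve AlgebraicCurve
open Fermat.Agent.S18.H138 (chart)
open Fermat.Agent.S36.Eng

section Parts

variable {R E F F' : Type*} [CommRing R] [Field E] [Algebra R E]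
  [Field F] [Algebra E F] [Algebra R F] [Field F'] [Algebra E F'] [Algebra R F']

/-- REG from its two halves and INCIDENCE. -/
theorem partReg_of_split {w : R} {x : F} {V₁ V₂ V₃ : ValuationSubring F}
    (hInc : PartInc w x V₁ V₂ V₃) (hT : PartRegT R x V₁ V₂ V₃) (hM : PartRegM R x V₁ V₂ V₃) :
    PartReg R x V₁ V₂ V₃ where
  regular_f := by
    intro 𝔪 hmax h2
    by_cases h1 : Through (chart R ({x} : Set F)) 𝔪 V₁
    · have ht := hInc.incidence 𝔪 hmax (Or.inl ⟨h1, h2⟩)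
      rcases hT.regular_t 𝔪 hmax ht with h | h
      · exact Or.inl ⟨h1, h⟩
      · exact Or.inr (Or.inr ⟨ht.2.2, h⟩)
    · by_cases h3 : Through (chart R ({x} : Set F)) 𝔪 V₃
      · have ht := hInc.incidence 𝔪 hmax (Or.inr (Or.inr ⟨h2, h3⟩))
        exact absurd ht.1 h1
      · exact Or.inr (Or.inl (hM.regular_m 𝔪 hmax h2 h1 h3))
  regular_i := hM.regular_i

/-- The thirteen parts reassemble the three-component context. -/
theorem tripleCtx_of_parts {w : R} {q : ℕ} {α β : F' →ₐ[E] F} {x : F} {x' : F'}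
    {V₁ V₂ V₃ : ValuationSubring F} {V₁' V₂' : ValuationSubring F'}
    (hFF : PartFF E x) (hVal : PartVal w q x V₁ V₂ V₃) (hSh : PartSheet w x V₁ V₂ V₃)
    (hQep : PartQep w x V₁ V₂ V₃)
    (hNor : PartNormal R x V₁ V₂ V₃) (hInc : PartInc w x V₁ V₂ V₃)
    (hReg : PartReg R x V₁ V₂ V₃) (hFin : PartFin E α β)
    (hTab : PartTable α β V₁ V₂ V₃ V₁' V₂')
    (hNV : PartNV w q α β V₁ V₂ V₃ V₁' V₂') (hNR : PartNR q α β V₁ V₂ V₃ V₁' V₂')
    (hCh : PartChart R α β x x' V₁ V₂ V₃) (hUn : PartUniq R α β x x' V₁ V₂ V₃) :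
    TripleCtx w q α β x x' V₁ V₂ V₃ V₁' V₂' where
  hx := hFF.hx
  hfin := hFF.hfin
  hconst := hFF.hconst
  dvr₁ := hVal.dvr₁
  dvr₂ := hVal.dvr₂
  dvr₃ := hVal.dvr₃
  ne₁₂ := hVal.ne₁₂
  ne₁₃ := hVal.ne₁₃
  ne₂₃ := hVal.ne₂₃
  unif₁ := hVal.unif₁
  unif₃ := hVal.unif₃
  ram₂ := hVal.ram₂
  base₁ := hSh.base₁
  base₂ := hSh.base₂
  base₃ := hSh.base₃
  x_unit₁ := hVal.x_unit₁
  x_unit₂ := hVal.x_unit₂
  x_unit₃ := hVal.x_unit₃
  gauss₁ := hSh.gauss₁
  gauss₂ := hSh.gauss₂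
  gauss₃ := hSh.gauss₃
  qep_f := hQep.qep_f
  qep_i := hQep.qep_i
  normal_f₁ := hNor.normal_f₁
  normal_f₂ := hNor.normal_f₂
  normal_f₃ := hNor.normal_f₃
  normal_i₁ := hNor.normal_i₁
  normal_i₂ := hNor.normal_i₂
  normal_i₃ := hNor.normal_i₃
  incidence := hInc.incidence
  regular_f := hReg.regular_f
  cusp_single := hInc.cusp_single
  regular_i := hReg.regular_i
  fin_α := hFin.fin_α
  fin_β := hFin.fin_β
  comap_α₁ := hTab.comap_α₁
  comap_α₂ := hTab.comap_α₂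
  comap_α₃ := hTab.comap_α₃
  comap_β₁ := hTab.comap_β₁
  comap_β₂ := hTab.comap_β₂
  comap_β₃ := hTab.comap_β₃
  nv_α := hNV.nv_α
  nv_β := hNV.nv_β
  nr_α₁ := hNR.nr_α₁
  nr_α₂ := hNR.nr_α₂
  nr_β₁ := hNR.nr_β₁
  nr_β₂ := hNR.nr_β₂
  chart_α := hCh.chart_α
  chart_β := hCh.chart_β
  int_α := hCh.int_α
  int_β := hCh.int_β
  res_α₁ := hCh.res_α₁
  res_α₂ := hCh.res_α₂
  res_β₃ := hCh.res_β₃
  res_β₂ := hCh.res_β₂
  unique_α := hUn.unique_α hCh.chart_α
  unique_β := hUn.unique_β hCh.chart_β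

end Parts

/-- **MOD3 skeleton.**  The fourteen leaves give `Eng.Model3Statement`. -/
theorem model3_of_leaves (hObj : LeafObj) (hFF : LeafFF) (hVal : LeafVal) (hSh : LeafSheet)
    (hQep : LeafQep) (hNor : LeafNormal) (hInc : LeafInc) (hReg : LeafReg) (hFin : LeafFin)
    (hTab : LeafTable) (hNV : LeafNV) (hNR : LeafNR) (hCh : LeafChart) (hUn : LeafUniq) :
    Model3Statement := by
  intro P E M q _ _ _ hq hqM hP hE hneat w hw
  have hS : Std P E M q w :=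
    { q_prime := hq, q_not_dvd := hqM, lies_over := hP, unram := hE, neat := hneat, unif := hw }
  obtain ⟨V₁', V₂', V₁, V₂, V₃, W', W, hO⟩ := hObj P E M q w hS
  exact ⟨x3E E M q, A2.Mod.xE E M q, V₁, V₂, V₃, V₁', V₂',
    tripleCtx_of_parts (hFF E M q hq hqM)
      (hVal P E M q w hS V₁' V₂' V₁ V₂ V₃ W' W hO)
      (hSh P E M q w hS V₁' V₂' V₁ V₂ V₃ W' W hO)
      (hQep P E M q w hS V₁' V₂' V₁ V₂ V₃ W' W hO)
      (hNor P E M q w hS V₁' V₂' V₁ V₂ V₃ W' W hO)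
      (hInc P E M q w hS V₁' V₂' V₁ V₂ V₃ W' W hO)
      (hReg P E M q w hS V₁' V₂' V₁ V₂ V₃ W' W hO)
      (hFin E M q hq hqM)
      (hTab P E M q w hS V₁' V₂' V₁ V₂ V₃ W' W hO)
      (hNV P E M q w hS V₁' V₂' V₁ V₂ V₃ W' W hO)
      (hNR P E M q w hS V₁' V₂' V₁ V₂ V₃ W' W hO)
      (hCh P E M q w hS V₁' V₂' V₁ V₂ V₃ W' W hO)
      (hUn P E M q w hS V₁' V₂' V₁ V₂ V₃ W' W hO)⟩

/-- `LeafReg` from its two halves and `LeafInc`. -/
theorem leafReg_of_split (hInc : LeafInc) (hT : LeafRegT) (hM : LeafRegM) : LeafReg :=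
  fun P E M q _ _ _ w hS V₁' V₂' V₁ V₂ V₃ W' W hO =>
    partReg_of_split (hInc P E M q w hS V₁' V₂' V₁ V₂ V₃ W' W hO)
      (hT P E M q w hS V₁' V₂' V₁ V₂ V₃ W' W hO) (hM P E M q w hS V₁' V₂' V₁ V₂ V₃ W' W hO)

/-- **MOD3 skeleton**, with REG split into REG-T and REG-M. -/
theorem model3_of_leaves' (hObj : LeafObj) (hFF : LeafFF) (hVal : LeafVal) (hSh : LeafSheet)
    (hQep : LeafQep) (hNor : LeafNormal) (hInc : LeafInc) (hRT : LeafRegT) (hRM : LeafRegM)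
    (hFin : LeafFin) (hTab : LeafTable) (hNV : LeafNV) (hNR : LeafNR) (hCh : LeafChart)
    (hUn : LeafUniq) : Model3Statement :=
  model3_of_leaves hObj hFF hVal hSh hQep hNor hInc (leafReg_of_split hInc hRT hRM) hFin hTab
    hNV hNR hCh hUn

end Fermat.Agent.S36.Mod3

end
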