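import Fermat.Agent.S36.Mod3.H928.OfCusp
import Fermat.Agent.S36.Mod3.H96.CuspCong

/-!
# S36 / MOD3 — `Eng.Model3Statement` (helper928, integrator)

`Mod3.model3 : Eng.Model3Statement`, UNCONDITIONAL: the three-component model of `X₀(M q²)` over
an unramified good level.  Assembly of the leaves of `Mod3/Spec.lean`, all proved on main:

* OBJ, VAL, TABLE, VT : helper370 (on helper972's Eisenstein splitting, helper83);
* FF, FIN : helper439;  SHEET : helper985;  QEP : helper27;  NORMAL : helper756;
* NV, NR : helper657 (helper253);  CHART : helper189;  INC, UNIQ : helper153;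
* REG : `q = 2` helper890 (`t₉`), `q` odd helper27 / helper878 / helper994 (`t₄`) with (R-U)
  helper356, (R-RES) helper775 / helper922; the cusps (`regular_i`) helper276 + helper96.
-/

set_option autoImplicit false

namespace Fermat.Agent.S36.Mod3

/-- **MOD3**: the interface statement `Eng.Model3Statement`. -/
theorem model3 : Eng.Model3Statement :=
  H928.model3_of_cuspCong H96.leafCuspCong96

end Fermat.Agent.S36.Mod3
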